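import Mathlib

/-!
# Row LT, tower T6, leaf T6.00 at `l = 2` over `ℚ` (helper438, OFF-MAIN): `HasseNormQ3`

The quadratic step `A3q` (`K = ℚ`, `K' = F = ℚ(√-3)`) needs Hasse's norm theorem for
`M = L(√-3)` over `L = ℚ[γ]`, an ARBITRARY quadratic field `≠ F`, real quadratic included
(both real places ramify in `M`).  Tower CFT is totally complex only.  This file cuts the
statement into ELEMENTARY leaves (Mathlib only, no class field theory, no idèles):

    HasseNormQ3C  ⟸  QuadGenC + LocalAC + NormFC + AlgBC + LocMulC + LocalCC + CoreC + AlgCC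

* Step A (`LocalAC` + `NormFC`): `n = N_{L/ℚ}(x)` is `> 0` with even valuation at every prime
  `p ≡ 2 mod 3`, hence `n = a² + 3 b²` (a norm from `F`).
* Step B (`AlgBC`): if `N_{L/ℚ}(x) = N_{F/ℚ}(z)` then `N_{M/L}(x + z) = x (Tr x + Tr z)`, so
  `x = c · N_{M/L}(y)` with `c ∈ ℚ^×`.
* Step C (`LocMulC` + `LocalCC` + `CoreC` + `AlgCC`): `c` is again a local norm everywhere; this
  says exactly `RatCond d c` (no place which SPLITS in `L = ℚ(√d)` ramifies in the quaternion
  algebra `(-3, c)_ℚ`); then `c ∈ N(F^×) · N(ℚ(√(-3d))^×)` (`CoreC`: Hasse principle for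
  "`L` splits `(-3, c)_ℚ`" = Legendre's theorem + Dirichlet's theorem + quadratic reciprocity), and
  both factors are norms from `M` to `L`.

Every Prop below is a TRUE statement.  Definitions and the PROVED top only; no `sorry`.
-/

set_option autoImplicit false

open IsDedekindDomain NumberField

noncomputable section

namespace Fermat.Agent.LT.T6.H438

/-! ## The statement -/

/-- `x` is a local norm from `M` at every finite place of `L` (the hypothesis of `T6.HasseNormC`,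
verbatim). -/
def IsLocNormFin438 (L M : Type) [Field L] [NumberField L] [Field M] [NumberField M]
    [Algebra L M] (x : L) : Prop :=
  ∀ u : IsDedekindDomain.HeightOneSpectrum (NumberField.RingOfIntegers L),
    ∃ y : TensorProduct L (u.adicCompletion L) M,
      Algebra.norm (u.adicCompletion L) (S := TensorProduct L (u.adicCompletion L) M) y
        = algebraMap L (u.adicCompletion L) x

/-- `x` is a local norm from `M` at every infinite place of `L` (the hypothesis of
`T6.HasseNormC`, verbatim). -/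
def IsLocNormInf438 (L M : Type) [Field L] [NumberField L] [Field M] [NumberField M]
    [Algebra L M] (x : L) : Prop :=
  ∀ u : NumberField.InfinitePlace L,
    ∃ y : TensorProduct L u.Completion M,
      Algebra.norm u.Completion (S := TensorProduct L u.Completion M) y
        = algebraMap L u.Completion x

/-- `(L, M)` is a pair of the quadratic step: `[L : ℚ] = 2`, `[M : L] = 2`, `√-3 ∈ M`,
`√-3 ∉ L`. -/
structure IsQ3Pair438 (L M : Type) [Field L] [NumberField L] [Field M] [NumberField M]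
    [Algebra L M] : Prop where
  degL : Module.finrank ℚ L = 2
  degM : Module.finrank L M = 2
  root : ∃ r : M, r ^ 2 = -3
  noRoot : ∀ s : L, s ^ 2 ≠ -3

/-- **HASSE NORM THEOREM for `M = L(√-3)`, `L` a quadratic field** (real or imaginary). -/
def HasseNormQ3C438 : Prop :=
  ∀ (L M : Type) [Field L] [NumberField L] [Field M] [NumberField M] [Algebra L M],
    IsQ3Pair438 L M → ∀ x : L, x ≠ 0 → IsLocNormFin438 L M x → IsLocNormInf438 L M x →
      ∃ y : M, Algebra.norm L y = x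

/-! ## Rational conditions -/

/-- The prime `p` splits in `ℚ(√d)` (`d` squarefree): `d ≡ 1 mod 8` for `p = 2`, and `d` a nonzero
square mod `p` for `p` odd. -/
def Splits438 (d : ℤ) (p : ℕ) : Prop :=
  (p = 2 ∧ d % 8 = 1) ∨ (p ≠ 2 ∧ ¬ (p : ℤ) ∣ d ∧ IsSquare ((d : ZMod p)))

/-- `n` is everywhere locally a norm from `F = ℚ(√-3)`: `n > 0` and `v_p(n)` is even for every
prime `p ≡ 2 mod 3` (the condition at `3` follows). -/
def NormCondF438 (n : ℚ) : Prop :=
  0 < n ∧ ∀ p : ℕ, p.Prime → p % 3 = 2 → Even (padicValRat p n)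

/-- The `3`-adic unit part of `c` is `≡ 1 mod 3`, in product-formula form:
`sign(c) · (-1)^{#{p ≡ 2 mod 3 : v_p(c) odd}} = 1`. -/
def Lam3_438 (c : ℚ) : Prop :=
  ∃ P : Finset ℕ, (∀ p : ℕ, p ∈ P ↔ p.Prime ∧ p % 3 = 2 ∧ Odd (padicValRat p c)) ∧
    (0 < c ↔ Even P.card)

/-- `c ∈ ℚ^×` is everywhere locally a norm from `L(√-3)` to `L = ℚ(√d)`:
no place which splits in `L` ramifies in `(-3, c)_ℚ`. -/
structure RatCond438 (d : ℤ) (c : ℚ) : Prop where
  atInf : 0 < d → 0 < c
  atInert : ∀ p : ℕ, p.Prime → p % 3 = 2 → Odd (padicValRat p c) → ¬ Splits438 d p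
  atThree : d % 3 = 1 → Lam3_438 c

/-! ## The leaves -/

/-- **Leaf QUAD-GEN.**  A quadratic field is `ℚ(√d)`, `d ≠ 1` a squarefree integer. -/
def QuadGenC438 : Prop :=
  ∀ (L : Type) [Field L] [NumberField L], Module.finrank ℚ L = 2 →
    ∃ d : ℤ, Squarefree d ∧ d ≠ 1 ∧ ∃ δ : L, δ ^ 2 = (d : L)

/-- **Leaf LOCAL-A.**  If `x` is a local norm everywhere from `M = L(√-3)`, then `N_{L/ℚ}(x)` is
everywhere locally a norm from `F`: positive (`L` imaginary: automatic; `L` real: `x` is totally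
positive), and `v_p` even for `p ≡ 2 mod 3` (at `u | p` of residue degree `1` the algebra
`L_u ⊗ M` is the unramified quadratic extension: `X² + X + 1` is irreducible mod `p`; `p` inert
in `L`: `v_p(N x) = 2 v_u(x)`). -/
def LocalAC438 : Prop :=
  ∀ (L M : Type) [Field L] [NumberField L] [Field M] [NumberField M] [Algebra L M],
    IsQ3Pair438 L M → ∀ x : L, x ≠ 0 → IsLocNormFin438 L M x → IsLocNormInf438 L M x →
      NormCondF438 (Algebra.norm ℚ x)

/-- **Leaf NORM-F.**  The norms from `ℚ(√-3)`: a positive rational with even valuation at every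
prime `p ≡ 2 mod 3` is `a² + 3 b²` (`3 = 0² + 3·1²`, `p ≡ 1 mod 3` is `a² + 3b²`, squares). -/
def NormFC438 : Prop :=
  ∀ n : ℚ, NormCondF438 n → ∃ a b : ℚ, n = a ^ 2 + 3 * b ^ 2

/-- **Leaf ALG-B** (pure field theory).  If `N_{L/ℚ}(x) = a² + 3b² = N_{F/ℚ}(z)`, `z = a + b√-3`,
then `N_{M/L}(x ± z) = x (Tr_{L/ℚ} x ± 2a)`, and one of the two traces is `≠ 0` because
`√-3 ∉ L`.  So `x = c · N_{M/L}(y)` with `c ∈ ℚ^×`. -/
def AlgBC438 : Prop :=
  ∀ (L M : Type) [Field L] [NumberField L] [Field M] [NumberField M] [Algebra L M],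
    IsQ3Pair438 L M → ∀ x : L, x ≠ 0 → (∃ a b : ℚ, Algebra.norm ℚ x = a ^ 2 + 3 * b ^ 2) →
      ∃ (c : ℚ) (y : M), c ≠ 0 ∧ y ≠ 0 ∧ x = algebraMap ℚ L c * Algebra.norm L y

/-- **Leaf LOC-MUL.**  The local norm conditions are stable under division by a global norm
(`Algebra.norm` commutes with the base change `L_u ⊗_L ·`, and is multiplicative). -/
def LocMulC438 : Prop :=
  ∀ (L M : Type) [Field L] [NumberField L] [Field M] [NumberField M] [Algebra L M],
    IsQ3Pair438 L M → ∀ (x c : L) (y : M), y ≠ 0 → x = c * Algebra.norm L y →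
      IsLocNormFin438 L M x → IsLocNormInf438 L M x →
        IsLocNormFin438 L M c ∧ IsLocNormInf438 L M c

/-- **Leaf LOCAL-C.**  For `c ∈ ℚ^×`: if `c` is a local norm everywhere from `M = L(√-3)`,
`L = ℚ(√d)`, then `RatCond d c` (`L` real: `c > 0`; `p ≡ 2 mod 3` split in `L`: `L_u = ℚ_p`,
`L_u ⊗ M` unramified quadratic, `v_p(c)` even; `3` split in `L`: `c = a² + 3b²` in `ℚ_3`, so the
unit part of `c` is a square mod `3`).  `d ≠ 1` makes `δ` a generator of `L`. -/
def LocalCC438 : Prop :=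
  ∀ (L M : Type) [Field L] [NumberField L] [Field M] [NumberField M] [Algebra L M],
    IsQ3Pair438 L M → ∀ (d : ℤ) (δ : L), Squarefree d → d ≠ 1 → δ ^ 2 = (d : L) →
      ∀ c : ℚ, c ≠ 0 → IsLocNormFin438 L M (algebraMap ℚ L c) →
        IsLocNormInf438 L M (algebraMap ℚ L c) → RatCond438 d c

/-- **Leaf CORE (elementary number theory over `ℚ`).**  Hasse principle for "`ℚ(√d)` splits
`(-3, c)_ℚ`": if no place which splits in `ℚ(√d)` ramifies in `(-3, c)`, then
`c ∈ N(ℚ(√-3)^×) · N(ℚ(√(-3d))^×)`.  Serre, *Cours d'arithmétique* IV Thm 8 (`n = 4`) for the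
form `a² + 3b² - c e² - 3cd f²`: Legendre's theorem (ternary forms) + Dirichlet's theorem on
primes in arithmetic progressions (Mathlib) + quadratic reciprocity (Mathlib). -/
def CoreC438 : Prop :=
  ∀ (d : ℤ) (c : ℚ), Squarefree d → d ≠ 1 → d ≠ -3 → c ≠ 0 → RatCond438 d c →
    ∃ a b e f : ℚ, (e ≠ 0 ∨ f ≠ 0) ∧ c * (e ^ 2 + 3 * (d : ℚ) * f ^ 2) = a ^ 2 + 3 * b ^ 2

/-- **Leaf ALG-C** (pure field theory).  `N(F^×) · N(ℚ(√(-3d))^×) ⊆ N_{M/L}(M^×)`: for
`r² = -3`, `δ² = d`: `N_{M/L}(a + b r) = a² + 3b²` and `N_{M/L}(e + f r δ) = e² + 3 d f²` (`≠ 0` because `√-3 ∉ L` and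
`d ≠ 0`). -/
def AlgCC438 : Prop :=
  ∀ (L M : Type) [Field L] [NumberField L] [Field M] [NumberField M] [Algebra L M],
    IsQ3Pair438 L M → ∀ (d : ℤ) (δ : L), Squarefree d → δ ^ 2 = (d : L) → ∀ c : ℚ, c ≠ 0 →
      (∃ a b e f : ℚ, (e ≠ 0 ∨ f ≠ 0) ∧
        c * (e ^ 2 + 3 * (d : ℚ) * f ^ 2) = a ^ 2 + 3 * b ^ 2) →
      ∃ y : M, Algebra.norm L y = algebraMap ℚ L c

/-! ## The top -/

/-- **TOP.**  `HasseNormQ3C` from the eight elementary leaves. -/
theorem hasseNormQ3_of_leaves438 (hgen : QuadGenC438) (hA : LocalAC438) (hF : NormFC438)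
    (hB : AlgBC438) (hmul : LocMulC438) (hC : LocalCC438) (hcore : CoreC438)
    (hAC : AlgCC438) : HasseNormQ3C438 := by
  intro L M _ _ _ _ _ hp x hx hfin hinf
  obtain ⟨d, hdsf, hd1, δ, hδ⟩ := hgen L hp.degL
  have hd3 : d ≠ -3 := by
    rintro rfl
    exact hp.noRoot δ (by rw [hδ]; push_cast; ring)
  obtain ⟨a, b, hab⟩ := hF _ (hA L M hp x hx hfin hinf)
  obtain ⟨c, y, hc, hy, hxy⟩ := hB L M hp x hx ⟨a, b, hab⟩
  obtain ⟨hcfin, hcinf⟩ := hmul L M hp x (algebraMap ℚ L c) y hy hxy hfin hinf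
  have hrat : RatCond438 d c := hC L M hp d δ hdsf hd1 hδ c hc hcfin hcinf
  obtain ⟨y₁, hy₁⟩ := hAC L M hp d δ hdsf hδ c hc (hcore d c hdsf hd1 hd3 hc hrat)
  exact ⟨y₁ * y, by rw [map_mul, hy₁, hxy]⟩

end Fermat.Agent.LT.T6.H438

end
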